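/-
GATE-H / AUX23 (helper72), abstract half (Mathlib-only).

`J`, `J'` abelian groups with an action of a monoid `G`, `π : J →+ J'` equivariant with kernel killed
by `d`, `d ∣ ℓ ^ v`, and `ℓ ^ v : J[ℓ ^ (k+v)] → J[ℓ ^ k]` onto.  Then `J[ℓ ^ k]` is an equivariant
SUBQUOTIENT of `J'[ℓ ^ (k+v)]`: the subgroup `S := π (J[ℓ ^ (k+v)])` and the well defined, onto,
equivariant map `φ : S → J[ℓ ^ k]`, `φ (π t) = ℓ ^ v • t`  (`exists_subquot`).

The surjectivity hypothesis is supplied by `surj_of_card` from the torsion counts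
`#J[ℓ ^ n] = ℓ ^ (c * n)` (for `J₀(N)`: helper18's `GH/TorsionCount.lean`).
-/
import Mathlib

set_option autoImplicit false

namespace Fermat.Agent.GH.Aux23

variable {J J' G : Type*} [AddCommGroup J] [AddCommGroup J'] [Monoid G]
  [DistribMulAction G J] [DistribMulAction G J']

/-- the `n`-torsion subgroup, as an `AddSubgroup` (`n : ℕ`). -/
def tors (J : Type*) [AddCommGroup J] (n : ℕ) : AddSubgroup J where
  carrier := {x | n • x = 0}
  zero_mem' := by simp
  add_mem' := by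
    intro a b ha hb
    simp only [Set.mem_ofPred_eq] at ha hb ⊢
    rw [smul_add, ha, hb, add_zero]
  neg_mem' := by
    intro a ha
    simp only [Set.mem_ofPred_eq] at ha ⊢
    rw [smul_neg, ha, neg_zero]

@[simp] theorem mem_tors {n : ℕ} {x : J} : x ∈ tors J n ↔ n • x = 0 := Iff.rfl

theorem smul_mem_tors (σ : G) {n : ℕ} {x : J} (hx : x ∈ tors J n) : σ • x ∈ tors J n := by
  rw [mem_tors] at hx ⊢
  rw [← smul_comm σ n x, hx, smul_zero]

theorem mem_tors_of_dvd {m n : ℕ} (h : m ∣ n) {x : J} (hx : x ∈ tors J m) : x ∈ tors J n := by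
  obtain ⟨c, rfl⟩ := h
  rw [mem_tors] at hx ⊢
  rw [mul_comm, mul_smul, hx, smul_zero]

/-- the spelling of the frozen S19: `Submodule.torsionBy ℤ J (n : ℤ)` has the same points. -/
theorem mem_tors_iff_mem_torsionBy {n : ℕ} {x : J} :
    x ∈ tors J n ↔ x ∈ Submodule.torsionBy ℤ J (n : ℤ) := by
  rw [mem_tors, Submodule.mem_torsionBy_iff, natCast_zsmul]

theorem natCard_tors_eq (n : ℕ) :
    Nat.card (tors J n) = Nat.card (Submodule.torsionBy ℤ J (n : ℤ)) :=
  Nat.card_congr (Equiv.subtypeEquivRight fun _ => mem_tors_iff_mem_torsionBy)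

/-- **the subquotient.** -/
theorem exists_subquot (π : J →+ J') (hπ : ∀ (σ : G) (x : J), π (σ • x) = σ • π x) (d : ℕ)
    (hker : ∀ x : J, π x = 0 → d • x = 0) (ℓ v k : ℕ) (hd : d ∣ ℓ ^ v)
    (hdiv : ∀ y : J, (ℓ ^ k) • y = 0 → ∃ t : J, (ℓ ^ v) • t = y) :
    ∃ (S : AddSubgroup J') (φ : S →+ J),
      (∀ s ∈ S, (ℓ ^ (k + v)) • s = 0) ∧
      (∀ (σ : G) (s : J'), s ∈ S → σ • s ∈ S) ∧
      (∀ s : S, (ℓ ^ k) • φ s = 0) ∧
      (∀ y : J, (ℓ ^ k) • y = 0 → ∃ s : S, φ s = y) ∧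
      (∀ (σ : G) (s : S) (hs : σ • (s : J') ∈ S), φ ⟨σ • (s : J'), hs⟩ = σ • φ s) := by
  classical
  set T : AddSubgroup J := tors J (ℓ ^ (k + v)) with hT
  set f : T →+ J' := π.comp T.subtype with hf
  set ψ : T →+ J := (nsmulAddMonoidHom (ℓ ^ v)).comp T.subtype with hψ
  have hψ_apply : ∀ t : T, ψ t = (ℓ ^ v) • (t : J) := fun t => rfl
  have hsurj : Function.Surjective f.rangeRestrict := f.rangeRestrict_surjective
  have hkerle : f.rangeRestrict.ker ≤ ψ.ker := by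
    intro t ht
    rw [AddMonoidHom.mem_ker] at ht ⊢
    have h0 : π (t : J) = 0 := congrArg Subtype.val ht
    obtain ⟨c, hc⟩ := hd
    rw [hψ_apply, hc, mul_comm, mul_smul, hker _ h0, smul_zero]
  set φ : f.range →+ J := f.rangeRestrict.liftOfSurjective hsurj ⟨ψ, hkerle⟩ with hφ
  have hφ_apply : ∀ t : T, φ (f.rangeRestrict t) = (ℓ ^ v) • (t : J) := by
    intro t
    rw [hφ]
    exact AddMonoidHom.liftOfRightInverse_comp_apply _ _ _ ⟨ψ, hkerle⟩ t
  refine ⟨f.range, φ, ?_, ?_, ?_, ?_, ?_⟩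
  · rintro s ⟨t, rfl⟩
    change (ℓ ^ (k + v)) • π (t : J) = 0
    rw [← map_nsmul, (mem_tors.mp t.2), map_zero]
  · rintro σ s ⟨t, rfl⟩
    refine ⟨⟨σ • (t : J), smul_mem_tors σ t.2⟩, ?_⟩
    change π (σ • (t : J)) = σ • π (t : J)
    exact hπ σ _
  · intro s
    obtain ⟨t, rfl⟩ := hsurj s
    rw [hφ_apply, ← mul_smul, ← pow_add]
    exact mem_tors.mp t.2
  · intro y hy
    obtain ⟨t, ht⟩ := hdiv y hy
    have htT : t ∈ T := by
      rw [hT, mem_tors, pow_add, mul_smul, ht, hy]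
    exact ⟨f.rangeRestrict ⟨t, htT⟩, by rw [hφ_apply]; exact ht⟩
  · intro σ s hs
    obtain ⟨t, rfl⟩ := hsurj s
    have key : (⟨σ • ((f.rangeRestrict t : f.range) : J'), hs⟩ : f.range) =
        f.rangeRestrict ⟨σ • (t : J), smul_mem_tors σ t.2⟩ := by
      apply Subtype.ext
      change σ • π (t : J) = π (σ • (t : J))
      exact (hπ σ _).symm
    rw [key, hφ_apply, hφ_apply]
    exact (smul_comm σ (ℓ ^ v) (t : J)).symm

/-- divisibility of the `ℓ`-power torsion from the counts `#J[ℓ ^ n] = ℓ ^ (c * n)`. -/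
theorem surj_of_card (ℓ c : ℕ) (hℓ : ℓ ≠ 0)
    (hcard : ∀ n : ℕ, Nat.card (tors J (ℓ ^ n)) = ℓ ^ (c * n)) (v k : ℕ) :
    ∀ y : J, (ℓ ^ k) • y = 0 → ∃ t : J, (ℓ ^ v) • t = y := by
  classical
  have hfin : ∀ n : ℕ, Finite (tors J (ℓ ^ n)) := fun n =>
    Nat.finite_of_card_ne_zero (by rw [hcard n]; exact pow_ne_zero _ hℓ)
  have := hfin (k + v)
  have := hfin k
  set T : AddSubgroup J := tors J (ℓ ^ (k + v)) with hT
  -- multiplication by `ℓ ^ v`, `T → J[ℓ ^ k]`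
  let m : T →+ tors J (ℓ ^ k) :=
    { toFun := fun t => ⟨(ℓ ^ v) • (t : J), by
        rw [mem_tors, ← mul_smul, ← pow_add]; exact mem_tors.mp t.2⟩
      map_zero' := by ext; simp
      map_add' := by intro a b; ext; simp [smul_add] }
  have hm_apply : ∀ t : T, ((m t : tors J (ℓ ^ k)) : J) = (ℓ ^ v) • (t : J) := fun _ => rfl
  -- the kernel of `m` is `J[ℓ ^ v]`
  have eker : m.ker ≃ tors J (ℓ ^ v) :=
    { toFun := fun t => ⟨((t : T) : J), by
        have h := t.2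
        rw [AddMonoidHom.mem_ker] at h
        have := congrArg Subtype.val h
        simpa [hm_apply] using this⟩
      invFun := fun x => ⟨⟨(x : J), mem_tors_of_dvd (pow_dvd_pow ℓ (Nat.le_add_left v k)) x.2⟩, by
        rw [AddMonoidHom.mem_ker]
        apply Subtype.ext
        rw [hm_apply]
        exact mem_tors.mp x.2⟩
      left_inv := fun t => by ext; rfl
      right_inv := fun x => by ext; rfl }
  have h1 : Nat.card T = Nat.card (T ⧸ m.ker) * Nat.card m.ker :=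
    AddSubgroup.card_eq_card_quotient_mul_card_addSubgroup m.ker
  have h2 : Nat.card (T ⧸ m.ker) = Nat.card m.range :=
    Nat.card_congr (QuotientAddGroup.quotientKerEquivRange m).toEquiv
  have h3 : Nat.card m.ker = ℓ ^ (c * v) := by rw [Nat.card_congr eker, hcard]
  have h4 : Nat.card m.range = ℓ ^ (c * k) := by
    have h5 : ℓ ^ (c * (k + v)) = Nat.card m.range * ℓ ^ (c * v) := by
      rw [← hcard (k + v), ← h2, ← h3]; exact h1
    have h6 : ℓ ^ (c * (k + v)) = ℓ ^ (c * k) * ℓ ^ (c * v) := by rw [← pow_add, mul_add]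
    exact Nat.eq_of_mul_eq_mul_right (Nat.pos_of_ne_zero (pow_ne_zero _ hℓ)) (h5.symm.trans h6)
  have htop : m.range = ⊤ := by
    apply AddSubgroup.eq_top_of_card_eq
    rw [h4, hcard]
  intro y hy
  have : (⟨y, mem_tors.mpr hy⟩ : tors J (ℓ ^ k)) ∈ m.range := by rw [htop]; trivial
  obtain ⟨t, ht⟩ := this
  exact ⟨(t : J), by rw [← hm_apply, ht]⟩

end Fermat.Agent.GH.Aux23
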