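/-
GATE-H / AUX23 (helper72): the auxiliary-level reduction of S19 at `ℓ ∈ {2, 3}` (and the trivial
case `ℓ ≥ 5`), as a statement about `J₀(N)` only — no Hopf algebras here.

For EVERY prime `ℓ ∤ N` there is a level `N'` with `ℓ ∤ N'`, `(ℓ = 2 → 3 ∣ N')`, `(ℓ = 3 → 2 ∣ N')`
(the side conditions of `GJ/S37/LSpaceGateProof.lSpaceGate` / `levelPackage`) and `v` such that
`J₀(N)[ℓ ^ k]` is a `G_ℚ`-equivariant SUBQUOTIENT of `J₀(N')[ℓ ^ (k+v)]`: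
a Galois-stable subgroup `S ≤ J₀(N')[ℓ ^ (k+v)]` and an onto equivariant `φ : S → J₀(N)[ℓ ^ k]`.

`N' = lcm 3 N, v = 2` (`ℓ = 2`), `N' = lcm 2 N, v = 1` (`ℓ = 3`), `N' = N, v = 0` otherwise;
`S = pullBar (J₀(N)[ℓ ^ (k+v)])`, `φ (pullBar t) = ℓ ^ v • t`.
Inputs: `S37PullPackageInst.pullPackage` (pull-back equivariant, kernel killed by `[F_N' : F_N]`),
`J1.Desc.relfinrank_lcm_prime` (`[F_{lcm p N} : F_N] ∈ {1, p+1}`), helper18's torsion count.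
-/
import Mathlib
import Fermat.Agent.GH.Aux23.Subquot
import Fermat.Agent.GH.TorsionCount
import Fermat.Agent.GJ.S37.PullPackageInst
import Fermat.Agent.GJ.J1.DescDegree

set_option autoImplicit false

open ModularCurve CongruenceSubgroup IntermediateField

namespace Fermat.Agent.GH.Aux23

open Fermat.Agent.GJ.S37HeckePullback

/-- `G_ℚ`. -/
local notation "GQ" => (AlgebraicClosure ℚ ≃ₐ[ℚ] AlgebraicClosure ℚ)

/-- the `ℓ`-power torsion of `J₀(N)(ℚ̄)` is `ℓ`-divisible (from the count `#J₀(N)[m] = m ^ (2g)`). -/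
theorem jZero_surj (N : ℕ) [NeZero N] (ℓ : ℕ) (hℓ : ℓ ≠ 0) (v k : ℕ) :
    ∀ y : JZero N, (ℓ ^ k) • y = 0 → ∃ t : JZero N, (ℓ ^ v) • t = y := by
  refine surj_of_card ℓ (2 * Module.finrank ℂ (CuspForm (Gamma0 N) 2)) hℓ (fun n => ?_) v k
  rw [natCard_tors_eq,
    Fermat.Agent.GH.TorsionCount.natCard_torsionBy_JZero N (ℓ ^ n) (pow_ne_zero n hℓ), ← pow_mul,
    mul_comm]

/-- the shape of the subquotient datum. -/
def IsSubquot (N N' : ℕ) (ℓ k v : ℕ) (S : AddSubgroup (JZero N')) (φ : S →+ JZero N) : Prop :=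
  (∀ s ∈ S, (ℓ ^ (k + v)) • s = 0) ∧
  (∀ (σ : GQ) (s : JZero N'), s ∈ S → σ • s ∈ S) ∧
  (∀ s : S, (ℓ ^ k) • φ s = 0) ∧
  (∀ y : JZero N, (ℓ ^ k) • y = 0 → ∃ s : S, φ s = y) ∧
  (∀ (σ : GQ) (s : S) (hs : σ • (s : JZero N') ∈ S), φ ⟨σ • (s : JZero N'), hs⟩ = σ • φ s)

/-- the subquotient along a divisibility of levels with `[F_N' : F_N] ∣ ℓ ^ v`. -/
theorem isSubquot_of_dvd (N N' : ℕ) [NeZero N] [NeZero N'] (h : N ∣ N') (ℓ : ℕ) (hℓ : ℓ ≠ 0)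
    (v k : ℕ)
    (hd : relfinrank (modularFunctionFieldBar N) (modularFunctionFieldBar N') ∣ ℓ ^ v) :
    ∃ (S : AddSubgroup (JZero N')) (φ : S →+ JZero N), IsSubquot N N' ℓ k v S φ := by
  obtain ⟨hpull, hker⟩ := Fermat.Agent.GJ.S37PullPackageInst.pullPackage N N' h
  exact exists_subquot (G := GQ) (pullBar h) hpull _ hker ℓ v k hd (jZero_surj N ℓ hℓ v k)

/-- **AUX23.** -/
theorem aux23 (N : ℕ) [NeZero N] (ℓ : ℕ) (hℓ : ℓ.Prime) (hℓN : ¬ ℓ ∣ N) (k : ℕ) :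
    ∃ (N' : ℕ) (_ : NeZero N') (v : ℕ), ¬ ℓ ∣ N' ∧ (ℓ = 2 → 3 ∣ N') ∧ (ℓ = 3 → 2 ∣ N') ∧
      ∃ (S : AddSubgroup (JZero N')) (φ : S →+ JZero N), IsSubquot N N' ℓ k v S φ := by
  by_cases h2 : ℓ = 2
  · subst h2
    have hne : NeZero (Nat.lcm 3 N) := ⟨Nat.lcm_ne_zero (by norm_num) (NeZero.ne N)⟩
    have hnd : ¬ 2 ∣ Nat.lcm 3 N :=
      Fermat.Agent.GJ.S37Final.not_dvd_lcm hℓ (by norm_num) hℓN
    refine ⟨Nat.lcm 3 N, hne, 2, hnd, fun _ => Nat.dvd_lcm_left 3 N,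
      fun h => absurd h (by norm_num), ?_⟩
    refine isSubquot_of_dvd N (Nat.lcm 3 N) (Nat.dvd_lcm_right 3 N) 2 (by norm_num) 2 k ?_
    rcases Fermat.Agent.GJ.J1.Desc.relfinrank_lcm_prime Nat.prime_three N with h | h
    · rw [h]; exact one_dvd _
    · rw [h]; norm_num
  · by_cases h3 : ℓ = 3
    · subst h3
      have hne : NeZero (Nat.lcm 2 N) := ⟨Nat.lcm_ne_zero (by norm_num) (NeZero.ne N)⟩
      have hnd : ¬ 3 ∣ Nat.lcm 2 N :=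
        Fermat.Agent.GJ.S37Final.not_dvd_lcm hℓ (by norm_num) hℓN
      refine ⟨Nat.lcm 2 N, hne, 1, hnd, fun h => absurd h (by norm_num),
        fun _ => Nat.dvd_lcm_left 2 N, ?_⟩
      refine isSubquot_of_dvd N (Nat.lcm 2 N) (Nat.dvd_lcm_right 2 N) 3 (by norm_num) 1 k ?_
      rcases Fermat.Agent.GJ.J1.Desc.relfinrank_lcm_prime Nat.prime_two N with h | h
      · rw [h]; exact one_dvd _
      · rw [h]; norm_num
    · refine ⟨N, inferInstance, 0, hℓN, fun h => absurd h h2, fun h => absurd h h3, ?_⟩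
      refine isSubquot_of_dvd N N (dvd_refl N) ℓ hℓ.ne_zero 0 k ?_
      rw [relfinrank_self]
      exact one_dvd _

end Fermat.Agent.GH.Aux23
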